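import Fermat.Statements.S52
import Fermat.Agent.S51.Three

/-!
# MOONSHOT S52 (3-5 switch): block contracts and the final assembly

Branch-only work (never landed on main unless the whole chain closes).
Blocks (finding #1435): `FamilyOut` (K1), `HITOut` (K2), `ModelOut` (K3), `CongOut` (K4),
`PsiThreeVC` (transport of rational roots of `psi_3` along a variable change),
`CongVC` (transport of the Galois module along a variable change).
`s52_of_blocks` : the frozen statement S52 from the block contracts.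
-/

set_option autoImplicit false

open WeierstrassCurve WeierstrassCurve.Affine Polynomial

namespace Fermat.Agent.SW.Contracts

/-- The algebraic closure of `ℚ` used by the frozen statements. -/
abbrev Qb := AlgebraicClosure ℚ

/-- The short Weierstrass curve `y² = x³ + A x + B` over `ℚ`. -/
def shortW (A B : ℚ) : WeierstrassCurve ℚ := ⟨0, 0, 0, A, B⟩

/-- The rational model of an integral Weierstrass curve. -/
abbrev ratW (W : WeierstrassCurve ℤ) : WeierstrassCurve ℚ := W.map (Int.castRingHom ℚ)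

/-- A Galois-equivariant isomorphism of the `n`-torsion of two curves over `ℚ`. -/
def Cong (n : ℕ) (E₁ E₂ : WeierstrassCurve ℚ) : Prop :=
  ∃ φ : Submodule.torsionBy ℤ (E₁.toAffine⁄Qb).Point n ≃+ Submodule.torsionBy ℤ (E₂.toAffine⁄Qb).Point n,
    ∀ (σ : Qb ≃ₐ[ℚ] Qb) (P : Submodule.torsionBy ℤ (E₁.toAffine⁄Qb).Point n), φ (σ • P) = σ • φ P

/-- Value of a rational function at a rational number. -/
noncomputable def ev (A : RatFunc ℚ) (s : ℚ) : ℚ := RatFunc.eval (RingHom.id ℚ) s A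

/-- `a` and `b` are close at every prime dividing `M`: the difference is `M` times a rational
number whose denominator is prime to `M`. -/
def Close (M : ℕ) (a b : ℚ) : Prop :=
  ∃ r : ℚ, a - b = M * r ∧ Nat.Coprime r.den M

/-- **K1 (FAMILY).** A one-parameter family through `W` with constant mod-5 Galois module and
generically irreducible mod-3 representation. -/
def FamilyOut : Prop :=
  ∀ W : WeierstrassCurve ℤ, W.Δ ≠ 0 → W.IsSemistableModel → W.ModRepIsIrreducible 5 →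
    ¬ W.ModRepIsIrreducible 3 →
    ∃ (A B : RatFunc ℚ) (s₀ : ℚ) (bad : Finset ℚ),
      A.denom.eval s₀ ≠ 0 ∧ B.denom.eval s₀ ≠ 0 ∧
      ev A s₀ = -27 * (W.c₄ : ℚ) ∧ ev B s₀ = -54 * (W.c₆ : ℚ) ∧
      (∀ s₁ : ℚ, s₁ ∉ bad → A.denom.eval s₁ ≠ 0 ∧ B.denom.eval s₁ ≠ 0 ∧
        4 * ev A s₁ ^ 3 + 27 * ev B s₁ ^ 2 ≠ 0 ∧ Cong 5 (shortW (ev A s₁) (ev B s₁)) (ratW W)) ∧
      (∀ x : RatFunc ℚ, 3 * x ^ 4 + 6 * A * x ^ 2 + 12 * B * x - A ^ 2 ≠ 0)

/-- **K2 (HILBERT IRREDUCIBILITY)**, at an unramified point, for the quartic `psi_3` of a family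
`y² = x³ + A(s) x + B(s)`: if it has no root in `ℚ(s)` and the fibre at `s₀` is nonsingular, then
for every modulus `M` and every finite set of bad parameters there is a rational `s₁`, close to
`s₀` at every prime dividing `M`, at which `psi_3` has no rational root.  (Route-agnostic shape:
Dörge's `s₁ = s₀ + M / u`, `u ≡ 1 mod M`, and the `p`-adic `s₁ = s₀ + pⁿ M'` are both instances
of `Close M s₁ s₀`.) -/
def HITOut : Prop :=
  ∀ (A B : RatFunc ℚ) (s₀ : ℚ), A.denom.eval s₀ ≠ 0 → B.denom.eval s₀ ≠ 0 →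
    4 * ev A s₀ ^ 3 + 27 * ev B s₀ ^ 2 ≠ 0 →
    (∀ x : RatFunc ℚ, 3 * x ^ 4 + 6 * A * x ^ 2 + 12 * B * x - A ^ 2 ≠ 0) →
    ∀ (M : ℕ), 0 < M → ∀ bad : Finset ℚ,
      ∃ s₁ : ℚ, Close M s₁ s₀ ∧ s₁ ∉ bad ∧
        A.denom.eval s₁ ≠ 0 ∧ B.denom.eval s₁ ≠ 0 ∧
        ∀ x : ℚ, 3 * x ^ 4 + 6 * ev A s₁ * x ^ 2 + 12 * ev B s₁ * x - ev A s₁ ^ 2 ≠ 0

/-- **(LIP)** a rational function regular at `s₀` is Lipschitz at every prime: for every target
modulus `M` there is a modulus `M'` such that `s₁` close to `s₀` modulo `M'` (and regular for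
`A`) gives `A s₁` close to `A s₀` modulo `M`. -/
def LipOut : Prop :=
  ∀ (A : RatFunc ℚ) (s₀ : ℚ), A.denom.eval s₀ ≠ 0 → ∀ M : ℕ, 0 < M →
    ∃ M' : ℕ, 0 < M' ∧
      ∀ s₁ : ℚ, Close M' s₁ s₀ → A.denom.eval s₁ ≠ 0 → Close M (ev A s₁) (ev A s₀)

/-- **K3 (MODEL).** A curve `y² = x³ + A₁ x + B₁` over `ℚ` that is close to `W` at the primes of
`M` (all bad primes of `W` and `2, 3, 5`) and has the same mod-5 Galois module has a semistable
integral model. -/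
def ModelOut : Prop :=
  ∀ W : WeierstrassCurve ℤ, W.Δ ≠ 0 → W.IsSemistableModel →
    ∃ M : ℕ, 0 < M ∧
      ∀ A₁ B₁ : ℚ, 4 * A₁ ^ 3 + 27 * B₁ ^ 2 ≠ 0 →
        Close M A₁ (-27 * (W.c₄ : ℚ)) → Close M B₁ (-54 * (W.c₆ : ℚ)) →
        Cong 5 (shortW A₁ B₁) (ratW W) →
        ∃ W' : WeierstrassCurve ℤ, W'.Δ ≠ 0 ∧ W'.IsSemistableModel ∧
          ∃ C : VariableChange ℚ, C • shortW A₁ B₁ = ratW W'

/-- **K4 (CONGRUENCE).** Isomorphic mod-5 Galois modules have congruent Frobenius traces. -/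
def CongOut : Prop :=
  ∀ W₁ W₂ : WeierstrassCurve ℤ, W₁.Δ ≠ 0 → W₂.Δ ≠ 0 → Cong 5 (ratW W₁) (ratW W₂) →
    ∀ ℓ : ℕ, ℓ.Prime → W₂.IsGoodPrimeFor ℓ → W₁.IsGoodPrimeFor ℓ → ℓ ≠ 5 →
      (5 : ℤ) ∣ W₁.apOfModel ℓ - W₂.apOfModel ℓ

/-- Transport of the `n`-torsion Galois module along a variable change over `ℚ`. -/
def CongVC : Prop :=
  ∀ (E₁ E₂ : WeierstrassCurve ℚ) (C : VariableChange ℚ), E₁.Δ ≠ 0 → C • E₁ = E₂ →
    ∀ n : ℕ, Cong n E₂ E₁

/-- Transport of rational roots of `psi_3` along a variable change over `ℚ`. -/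
def PsiThreeVC : Prop :=
  ∀ (E₁ E₂ : WeierstrassCurve ℚ) (C : VariableChange ℚ), C • E₁ = E₂ →
    (∃ x : ℚ, Fermat.Agent.S51.Three.psi3 E₂.toAffine x = 0) →
      ∃ x : ℚ, Fermat.Agent.S51.Three.psi3 E₁.toAffine x = 0

theorem close_of_dvd {M M' : ℕ} (h : M ∣ M') {a b : ℚ} (hc : Close M' a b) : Close M a b := by
  obtain ⟨k, rfl⟩ := h
  obtain ⟨r, hr, hcop⟩ := hc
  refine ⟨(k : ℚ) * r, by rw [hr]; push_cast; ring, ?_⟩
  have hden : ((k : ℚ) * r).den ∣ r.den := by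
    have := Rat.mul_den_dvd (k : ℚ) r
    simpa using this
  exact Nat.Coprime.coprime_dvd_left hden (Nat.Coprime.coprime_mul_right_right hcop)

theorem cong_trans {n : ℕ} {E₁ E₂ E₃ : WeierstrassCurve ℚ} (h₁ : Cong n E₁ E₂)
    (h₂ : Cong n E₂ E₃) : Cong n E₁ E₃ := by
  obtain ⟨φ, hφ⟩ := h₁
  obtain ⟨ψ, hψ⟩ := h₂
  exact ⟨φ.trans ψ, fun σ P => by simp [hφ, hψ]⟩

theorem cong_refl (n : ℕ) (E : WeierstrassCurve ℚ) : Cong n E E :=
  ⟨AddEquiv.refl _, fun _ _ => rfl⟩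

end Fermat.Agent.SW.Contracts
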