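import Fermat.Agent.SW.Contracts

/-!
# MOONSHOT S52: the leaf `LipOut`

A rational function `A ∈ ℚ(s)` regular at `s₀` is Lipschitz at every prime: for every modulus `M`
there is a modulus `M'` (a power of `M`) such that `A s₁ ≡ A s₀` modulo `M` (in the ring of
rationals with denominator prime to `M`) whenever `s₁ ≡ s₀` modulo `M'` (contract shape v2,
`Contracts.Close`).

Proof: clear denominators of the Taylor shifts of numerator and denominator at `s₀`
(`exists_int_poly`), evaluate integer polynomials inside the subring `Rloc M` of rationals with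
denominator prime to `M` (`eval_int_poly`), and finish with `q`-adic valuations (`close_final`).
-/

set_option autoImplicit false

open Polynomial

namespace Fermat.Agent.SW.Lip

open Fermat.Agent.SW.Contracts

/-- Rationals whose denominator is prime to `M`. -/
def Rloc (M : ℕ) : Subring ℚ where
  carrier := {r | r.den.Coprime M}
  mul_mem' := fun {a b} ha hb =>
    Nat.Coprime.coprime_dvd_left (Rat.mul_den_dvd a b) (Nat.Coprime.mul_left ha hb)
  one_mem' := by simp
  add_mem' := fun {a b} ha hb =>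
    Nat.Coprime.coprime_dvd_left (Rat.add_den_dvd a b) (Nat.Coprime.mul_left ha hb)
  zero_mem' := by simp
  neg_mem' := fun {a} ha => by simpa using ha

theorem mem_Rloc {M : ℕ} {r : ℚ} : r ∈ Rloc M ↔ r.den.Coprime M := Iff.rfl

theorem inv_int_mem_Rloc {M : ℕ} {u : ℤ} (hu : u ≠ 0) (h : u.natAbs.Coprime M) :
    ((u : ℚ))⁻¹ ∈ Rloc M := by
  rw [mem_Rloc, Rat.inv_intCast_den, if_neg hu]
  exact h

/-- An integer polynomial evaluated at `h ∈ Rloc M` is congruent to its constant term modulo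
`h · Rloc M`. -/
theorem eval_int_poly {M : ℕ} (P : ℤ[X]) {h : ℚ} (hh : h ∈ Rloc M) :
    ∃ w ∈ Rloc M, (P.map (Int.castRingHom ℚ)).eval h = (P.coeff 0 : ℚ) + h * w := by
  set R := Rloc M
  set η : R := ⟨h, hh⟩
  obtain ⟨w, hw⟩ := Polynomial.sub_dvd_eval_sub η 0 (P.map (Int.castRingHom R))
  refine ⟨w.1, w.2, ?_⟩
  have hcomp : (R.subtype).comp (Int.castRingHom R) = Int.castRingHom ℚ := RingHom.ext_int _ _
  have h1 : (P.map (Int.castRingHom ℚ)).eval h
      = R.subtype ((P.map (Int.castRingHom R)).eval η) := by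
    rw [Polynomial.eval_map, Polynomial.eval_map, Polynomial.hom_eval₂, hcomp]
    rfl
  have h0 : ((P.coeff 0 : ℤ) : ℚ) = R.subtype ((P.map (Int.castRingHom R)).eval 0) := by
    rw [← Polynomial.coeff_zero_eq_eval_zero, Polynomial.coeff_map]
    simp
  rw [h1, h0]
  have := congrArg R.subtype hw
  rw [map_sub, map_mul, sub_zero] at this
  rw [sub_eq_iff_eq_add'] at this
  rw [this]
  rfl

/-- Clearing denominators of a rational polynomial. -/
theorem exists_int_poly (p : ℚ[X]) :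
    ∃ c : ℤ, c ≠ 0 ∧ ∃ Pz : ℤ[X], Pz.map (Int.castRingHom ℚ) = C (c : ℚ) * p := by
  obtain ⟨b, hbM, hb⟩ := IsLocalization.integerNormalization_spec (nonZeroDivisors ℤ) (S := ℚ) p
  refine ⟨b, nonZeroDivisors.ne_zero hbM, IsLocalization.integerNormalization (nonZeroDivisors ℤ) p, ?_⟩
  have : algebraMap ℤ ℚ = Int.castRingHom ℚ := rfl
  rw [this] at hb
  rw [hb, zsmul_eq_mul]
  simp

section Val

variable (q : ℕ) [hq : Fact q.Prime]

theorem not_dvd_den_of_nonneg {r : ℚ} (h : 0 ≤ padicValRat q r) : ¬ q ∣ r.den := by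
  intro hd
  have h1 : 1 ≤ padicValNat q r.den := one_le_padicValNat_of_dvd r.den_ne_zero hd
  have h2 : padicValInt q r.num = 0 := by
    apply padicValInt.eq_zero_of_not_dvd
    intro hn
    have hcop := r.reduced
    have : q ∣ r.num.natAbs := Int.natCast_dvd.mp hn
    have := Nat.dvd_gcd this hd
    rw [hcop] at this
    exact hq.out.one_lt.ne' (Nat.dvd_one.mp this)
  rw [padicValRat_def, h2] at h
  omega

theorem nonneg_of_mem_Rloc {M : ℕ} (hqM : q ∣ M) {r : ℚ} (hr : r ∈ Rloc M) :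
    0 ≤ padicValRat q r := by
  have hd : ¬ q ∣ r.den := by
    intro hd
    have := Nat.dvd_gcd hd hqM
    rw [mem_Rloc.mp hr] at this
    exact hq.out.one_lt.ne' (Nat.dvd_one.mp this)
  rw [padicValRat_def, padicValNat.eq_zero_of_not_dvd hd]
  simp

end Val

/-- The valuation endgame. -/
theorem close_final {M M'' : ℕ} (hM : 0 < M) {e : ℤ} (he : e ≠ 0) {w ρ : ℚ}
    (hw : w ∈ Rloc M) (hρ : ρ ∈ Rloc M) (hx : (e : ℚ) + M'' * ρ ≠ 0)
    (hdiv : M ^ (2 * e.natAbs + 1) ∣ M'') (hM'' : 0 < M'') :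
    ∃ r : ℚ, (M'' : ℚ) * w / (((e : ℚ) + M'' * ρ) * e) = M * r ∧ r.den.Coprime M := by
  have hMq : (M : ℚ) ≠ 0 := by exact_mod_cast hM.ne'
  have heq : (e : ℚ) ≠ 0 := by exact_mod_cast he
  refine ⟨(M'' : ℚ) * w / (((e : ℚ) + M'' * ρ) * e) / M, by field_simp, ?_⟩
  apply Nat.coprime_of_dvd
  intro q hqp hqden hqM
  have : Fact q.Prime := ⟨hqp⟩
  refine not_dvd_den_of_nonneg q ?_ hqden
  by_cases hw0 : w = 0
  · simp [hw0]
  obtain ⟨k, hk⟩ := hdiv
  have hk0 : k ≠ 0 := by
    rintro rfl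
    rw [mul_zero] at hk
    omega
  have hM''q : (M'' : ℚ) ≠ 0 := by exact_mod_cast hM''.ne'
  set E := e.natAbs with hE
  have hE0 : E ≠ 0 := Int.natAbs_ne_zero.mpr he
  -- valuations
  have vM : 1 ≤ padicValNat q M := one_le_padicValNat_of_dvd hM.ne' hqM
  have vE : padicValNat q E < E := by
    rw [← Nat.factorization_def E hqp]
    exact Nat.factorization_lt q hE0
  have vM'' : padicValRat q (M'' : ℚ) = (2 * E + 1) * padicValNat q M + padicValNat q k := by
    rw [padicValRat.of_nat, hk, padicValNat.mul (pow_ne_zero _ hM.ne') hk0, padicValNat.pow]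
    push_cast
    ring
  have ve : padicValRat q (e : ℚ) = padicValNat q E := by
    rw [padicValRat.of_int]
    rfl
  have vw := nonneg_of_mem_Rloc q hqM hw
  have vx : padicValRat q ((e : ℚ) + M'' * ρ) = padicValRat q (e : ℚ) := by
    by_cases hρ0 : ρ = 0
    · simp [hρ0]
    · apply padicValRat.add_eq_of_lt hx heq (mul_ne_zero hM''q hρ0)
      rw [padicValRat.mul hM''q hρ0, vM'', ve]
      have vρ := nonneg_of_mem_Rloc q hqM hρ
      have : (E : ℤ) ≤ 2 * E * padicValNat q M := by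
        have : (1 : ℤ) ≤ padicValNat q M := by exact_mod_cast vM
        nlinarith
      have : (padicValNat q E : ℤ) < E := by exact_mod_cast vE
      have : (0 : ℤ) ≤ padicValNat q k := by positivity
      nlinarith
  rw [padicValRat.div (div_ne_zero (mul_ne_zero hM''q hw0) (mul_ne_zero hx heq)) hMq,
    padicValRat.div (mul_ne_zero hM''q hw0) (mul_ne_zero hx heq),
    padicValRat.mul hM''q hw0, padicValRat.mul hx heq, vx, ve, vM'', padicValRat.of_nat]
  have h1 : (1 : ℤ) ≤ padicValNat q M := by exact_mod_cast vM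
  have h2 : (padicValNat q E : ℤ) < E := by exact_mod_cast vE
  have h3 : (0 : ℤ) ≤ padicValNat q k := by positivity
  have h4 : (0 : ℤ) ≤ E := by positivity
  nlinarith

/-- **LipOut.** -/
theorem lipOut : LipOut := by
  intro A s₀ hD0 M hM
  -- Taylor shifts at `s₀` and their integer normalisations
  obtain ⟨c₁, hc₁, Nz, hNz⟩ := exists_int_poly (A.num.comp (X + C s₀))
  obtain ⟨c₂, hc₂, Dz, hDz⟩ := exists_int_poly (A.denom.comp (X + C s₀))
  set c : ℤ := c₁ * c₂ with hc
  have hc0 : (c : ℚ) ≠ 0 := by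
    rw [hc]; push_cast
    exact mul_ne_zero (by exact_mod_cast hc₁) (by exact_mod_cast hc₂)
  set Nz' : ℤ[X] := C c₂ * Nz with hNz'
  set Dz' : ℤ[X] := C c₁ * Dz with hDz'
  have hNmap : Nz'.map (Int.castRingHom ℚ) = C (c : ℚ) * A.num.comp (X + C s₀) := by
    rw [hNz', Polynomial.map_mul, hNz, Polynomial.map_C, hc, eq_intCast]
    push_cast
    rw [C_mul]
    ring
  have hDmap : Dz'.map (Int.castRingHom ℚ) = C (c : ℚ) * A.denom.comp (X + C s₀) := by
    rw [hDz', Polynomial.map_mul, hDz, Polynomial.map_C, hc, eq_intCast]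
    push_cast
    rw [C_mul]
    ring
  have hNev : ∀ h : ℚ, (Nz'.map (Int.castRingHom ℚ)).eval h = c * A.num.eval (s₀ + h) := by
    intro h
    rw [hNmap]
    simp [Polynomial.eval_comp, add_comm]
  have hDev : ∀ h : ℚ, (Dz'.map (Int.castRingHom ℚ)).eval h = c * A.denom.eval (s₀ + h) := by
    intro h
    rw [hDmap]
    simp [Polynomial.eval_comp, add_comm]
  have hn0 : ((Nz'.coeff 0 : ℤ) : ℚ) = c * A.num.eval s₀ := by
    have := hNev 0
    rw [← Polynomial.coeff_zero_eq_eval_zero, Polynomial.coeff_map, add_zero] at this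
    simpa using this
  have he0 : ((Dz'.coeff 0 : ℤ) : ℚ) = c * A.denom.eval s₀ := by
    have := hDev 0
    rw [← Polynomial.coeff_zero_eq_eval_zero, Polynomial.coeff_map, add_zero] at this
    simpa using this
  set e : ℤ := Dz'.coeff 0 with he
  have hene : e ≠ 0 := by
    intro h
    rw [h] at he0
    have : (c : ℚ) * A.denom.eval s₀ = 0 := by rw [← he0]; simp
    exact (mul_ne_zero hc0 hD0) this
  refine ⟨M ^ (2 * e.natAbs + 1), pow_pos hM _, ?_⟩
  intro s₁ hclose hD1
  obtain ⟨r₀, hr₀, hr₀c⟩ := hclose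
  have hMM' : M ∣ M ^ (2 * e.natAbs + 1) := dvd_pow_self M (Nat.succ_ne_zero _)
  have hr₀mem : r₀ ∈ Rloc M := Nat.Coprime.coprime_dvd_right hMM' hr₀c
  set M'' : ℕ := M ^ (2 * e.natAbs + 1) with hM''def
  have hM''pos : 0 < M'' := pow_pos hM _
  set h : ℚ := (M'' : ℚ) * r₀ with hh
  have hhmem : h ∈ Rloc M := (Rloc M).mul_mem (natCast_mem _ M'') hr₀mem
  have hs₁ : s₁ = s₀ + h := by rw [← hr₀]; ring
  rw [hs₁] at hD1 ⊢
  obtain ⟨wN, hwN, hN⟩ := eval_int_poly Nz' hhmem
  obtain ⟨wD, hwD, hD⟩ := eval_int_poly Dz' hhmem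
  rw [hNev] at hN
  rw [hDev] at hD
  have hx : (e : ℚ) + M'' * (r₀ * wD) ≠ 0 := by
    have : (e : ℚ) + M'' * (r₀ * wD) = c * A.denom.eval (s₀ + h) := by
      rw [hD, hh]; ring
    rw [this]
    exact mul_ne_zero hc0 hD1
  have hw : r₀ * (wN * e - (Nz'.coeff 0 : ℤ) * wD) ∈ Rloc M :=
    (Rloc M).mul_mem hr₀mem ((Rloc M).sub_mem ((Rloc M).mul_mem hwN (intCast_mem _ e))
      ((Rloc M).mul_mem (intCast_mem _ _) hwD))
  have hρ : r₀ * wD ∈ Rloc M := (Rloc M).mul_mem hr₀mem hwD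
  obtain ⟨r, hr, hrc⟩ := close_final hM hene hw hρ hx (dvd_refl _) hM''pos
  refine ⟨r, ?_, hrc⟩
  rw [← hr]
  simp only [ev, RatFunc.eval, Polynomial.eval₂_id]
  have heq : (e : ℚ) ≠ 0 := by exact_mod_cast hene
  have hN1 : A.num.eval (s₀ + h) = ((Nz'.coeff 0 : ℤ) + h * wN) / c := by
    rw [← hN]; field_simp
  have hD1' : A.denom.eval (s₀ + h) = ((e : ℚ) + h * wD) / c := by
    rw [← hD]; field_simp
  have hN0 : A.num.eval s₀ = ((Nz'.coeff 0 : ℤ) : ℚ) / c := by
    rw [hn0]; field_simp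
  have hD0' : A.denom.eval s₀ = (e : ℚ) / c := by
    rw [he0]; field_simp
  have hb : (e : ℚ) + h * wD ≠ 0 := by
    have : (e : ℚ) + h * wD = (e : ℚ) + M'' * (r₀ * wD) := by rw [hh]; ring
    rw [this]; exact hx
  rw [hN1, hD1', hN0, hD0', div_div_div_cancel_right₀ hc0, div_div_div_cancel_right₀ hc0,
    div_sub_div _ _ hb heq]
  have hden : ((e : ℚ) + h * wD) * e = ((e : ℚ) + M'' * (r₀ * wD)) * e := by
    rw [hh]; ring
  rw [hden]
  congr 1
  rw [hh]; ring

end Fermat.Agent.SW.Lip
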