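import Fermat.Agent.SW.Final
import Fermat.Agent.SW.Lip
import Fermat.Agent.SW.K4.Done
import Fermat.Agent.SW.K4.PsiVC
import Fermat.Agent.SW.K4.ShortForm
import Fermat.Agent.SW.HIT.Done
import Fermat.Agent.SW.K3.ModelOut
import Fermat.Agent.SW.K1.Assembly
import Fermat.Agent.SW.K1.LeafJ
import Fermat.Agent.SW.K1.PlaceExport
import Fermat.Agent.SW.K1F.LeafF
import Fermat.Agent.SW.K1.Eval16
import Fermat.Agent.SW.K1.LeafS21
import Fermat.Agent.SW.K1G.Adapter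
import Fermat.Agent.SW.K1G.LeafPsi
import Fermat.Agent.SW.K1.LeafD
import Fermat.Agent.SW.K1c.EOmegaProof
import Fermat.Agent.SW.LeafI.Genus
import Fermat.Agent.SW.Bridge.ECore1

/-!
# Program F (S52, the 3-5 switch): final assembly

`s52 : S52Concl` — the frozen statement S52, from the block contracts of `SW/Contracts.lean`:

* `FamilyOut` (K1): `SW/K1/Assembly.lean` (helper13) from the leaves
  `LeafB` (`SW/K1/PlaceExport.lean`, helper14 + helper19), `LeafD` (`SW/K1/LeafD.lean`,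
  helper25 + helper2), `LeafE` (`SW/K1c/EOmegaProof.lean`, helper18 + helper24 + helper7, through
  `ECore1`, `SW/Bridge/ECore1.lean`, helper11 + helper12), `LeafF` (`SW/K1F/LeafF.lean`,
  helper28 + helper22), `LeafG`, `LeafPsi` (`SW/K1G/`, helper20), `LeafEval` (`SW/K1/Eval16.lean`,
  helper16), `LeafS` (`SW/K1/LeafS21.lean`, helper21), `LeafI` (`SW/LeafI/Genus.lean`,
  helper2 + helper5, through `ECore2`, `SW/Bridge/ECore.lean`, helper11), `LeafJ1`
  (`SW/K1/LeafJ.lean`, helper7), `LeafJ2` (`SW/K4/ShortForm.lean`, helper6);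
* `HITOut` (K2): `SW/HIT/Done.lean` (helper25 + helper21); `LipOut`: `SW/Lip.lean` (helper27);
* `ModelOut` (K3): `SW/K3/ModelOut.lean` (helper23 + helper15);
* `CongOut`, `CongVC` (K4): `SW/K4/Done.lean` (helper6 + helper7); `PsiThreeVC`:
  `SW/K4/PsiVC.lean` (helper6);
* `SW/Final.lean` (`s52_of_blocks`, helper13).
-/

set_option autoImplicit false

open WeierstrassCurve

namespace Fermat.Agent.SW.Done

open Fermat.Agent.SW.Contracts Fermat.Agent.SW.K1.Leaves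

/-- The frozen statement S52. -/
def S52Concl : Prop :=
  ∀ (W : WeierstrassCurve ℤ), W.Δ ≠ 0 → W.IsSemistableModel → W.ModRepIsIrreducible 5 →
    ∃ W' : WeierstrassCurve ℤ, W'.Δ ≠ 0 ∧ W'.IsSemistableModel ∧ W'.ModRepIsIrreducible 3 ∧
      ∀ ℓ : ℕ, ℓ.Prime → W.IsGoodPrimeFor ℓ → W'.IsGoodPrimeFor ℓ → ℓ ≠ 5 →
        (5 : ℤ) ∣ (W'.apOfModel ℓ - W.apOfModel ℓ)

theorem leafJ1 : LeafJ1 := fun W hΔ hW =>
  Fermat.Agent.SW.K1.LeafJ.c₄_ne_zero_and_c₆_ne_zero W hΔ hW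

theorem leafJ2 : LeafJ2 := fun W =>
  Fermat.Agent.SW.K4.ShortForm.exists_variableChange_short_ratW W

theorem leafE : LeafE :=
  Fermat.Agent.SW.K1c.EOmegaProof.leafE_of_eCore1 Fermat.Agent.SW.Bridge.ECore.eCore1

theorem leafI : LeafI :=
  Fermat.Agent.SW.LeafI.Genus.leafI_of_ECore2 Fermat.Agent.SW.Bridge.ECore.eCore2

/-- **K1.** -/
theorem familyOut : FamilyOut :=
  Fermat.Agent.SW.K1.Assembly.familyOut Fermat.Agent.SW.K1.PlaceExport.leafB
    Fermat.Agent.SW.K1.LeafD.leafD leafE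
    Fermat.Agent.SW.K1F.leafF Fermat.Agent.SW.K1G.Adapter.leafG
    Fermat.Agent.SW.K1.Eval16.leafEval Fermat.Agent.SW.K1.LeafS21.leafS
    Fermat.Agent.SW.K1G.LeafPsi.leafPsi leafI leafJ1 leafJ2
    Fermat.Agent.SW.K4.Done.congVC

/-- **S52.** -/
theorem s52 : S52Concl := fun W hΔ hW h5 =>
  Fermat.Agent.SW.Final.s52_of_blocks familyOut Fermat.Agent.SW.HIT.Done.hitOut
    Fermat.Agent.SW.Lip.lipOut
    (Fermat.Agent.SW.K3.ModelOut.modelOut Fermat.Agent.SW.K4.Done.congVC)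
    Fermat.Agent.SW.K4.Done.congOut Fermat.Agent.SW.K4.Done.congVC
    Fermat.Agent.SW.K4.PsiVC.psiThreeVC W hΔ hW h5

end Fermat.Agent.SW.Done
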