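import Fermat.Agent.SW.Contracts

/-!
# MOONSHOT S52: the frozen statement from the block contracts
-/

set_option autoImplicit false

open WeierstrassCurve WeierstrassCurve.Affine Polynomial

namespace Fermat.Agent.SW.Final

open Fermat.Agent.SW.Contracts

theorem shortW_Δ (A B : ℚ) : (shortW A B).Δ = -16 * (4 * A ^ 3 + 27 * B ^ 2) := by
  simp only [shortW, WeierstrassCurve.Δ, WeierstrassCurve.b₂, WeierstrassCurve.b₄,
    WeierstrassCurve.b₆, WeierstrassCurve.b₈]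
  ring

theorem psi3_shortW (A B x : ℚ) :
    Fermat.Agent.S51.Three.psi3 (shortW A B).toAffine x
      = 3 * x ^ 4 + 6 * A * x ^ 2 + 12 * B * x - A ^ 2 := by
  simp only [Fermat.Agent.S51.Three.psi3, shortW, WeierstrassCurve.b₂, WeierstrassCurve.b₄,
    WeierstrassCurve.b₆, WeierstrassCurve.b₈, WeierstrassCurve.toAffine]
  ring

/-- **S52 from the block contracts.** -/
theorem s52_of_blocks (hF : FamilyOut) (hH : HITOut) (hL : LipOut) (hM : ModelOut)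
    (hC : CongOut) (hV : CongVC) (hP : PsiThreeVC)
    (W : WeierstrassCurve ℤ) (hΔ : W.Δ ≠ 0) (hW : W.IsSemistableModel)
    (h5 : W.ModRepIsIrreducible 5) :
    ∃ W' : WeierstrassCurve ℤ, W'.Δ ≠ 0 ∧ W'.IsSemistableModel ∧ W'.ModRepIsIrreducible 3 ∧
      ∀ ℓ : ℕ, ℓ.Prime → W.IsGoodPrimeFor ℓ → W'.IsGoodPrimeFor ℓ → ℓ ≠ 5 →
        (5 : ℤ) ∣ (W'.apOfModel ℓ - W.apOfModel ℓ) := by
  classical
  by_cases h3 : W.ModRepIsIrreducible 3
  · exact ⟨W, hΔ, hW, h3, fun ℓ _ _ _ _ => by simp⟩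
  obtain ⟨A, B, s₀, bad, hA0, hB0, hAv, hBv, hfam, hgen⟩ := hF W hΔ hW h5 h3
  obtain ⟨M, hMpos, hmodel⟩ := hM W hΔ hW
  obtain ⟨MA, hMApos, hlipA⟩ := hL A s₀ hA0 M hMpos
  obtain ⟨MB, hMBpos, hlipB⟩ := hL B s₀ hB0 M hMpos
  set M'' : ℕ := MA * MB with hM''
  have hM''pos : 0 < M'' := Nat.mul_pos hMApos hMBpos
  -- the fibre at `s₀` is nonsingular
  have hdisc0 : 4 * ev A s₀ ^ 3 + 27 * ev B s₀ ^ 2 ≠ 0 := by
    rw [hAv, hBv]
    intro h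
    apply hΔ
    have h1728 : (1728 : ℚ) * (W.Δ : ℚ) = (W.c₄ : ℚ) ^ 3 - (W.c₆ : ℚ) ^ 2 := by
      have := W.c_relation
      have h' : (1728 : ℤ) * W.Δ = W.c₄ ^ 3 - W.c₆ ^ 2 := this
      exact_mod_cast h'
    have : (W.Δ : ℚ) = 0 := by nlinarith [h, h1728]
    exact_mod_cast this
  obtain ⟨s₁, hclose, hubad, hAu, hBu, hroot⟩ :=
    hH A B s₀ hA0 hB0 hdisc0 hgen M'' hM''pos bad
  obtain ⟨-, -, hdisc1, hcong⟩ := hfam s₁ hubad
  have hcA : Close M (ev A s₁) (-27 * (W.c₄ : ℚ)) := by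
    rw [← hAv]
    exact hlipA s₁ (close_of_dvd (Dvd.intro _ rfl) hclose) hAu
  have hcB : Close M (ev B s₁) (-54 * (W.c₆ : ℚ)) := by
    rw [← hBv]
    exact hlipB s₁ (close_of_dvd (Dvd.intro_left _ rfl) hclose) hBu
  obtain ⟨W', hΔ', hW', C, hCeq⟩ := hmodel (ev A s₁) (ev B s₁) hdisc1 hcA hcB hcong
  refine ⟨W', hΔ', hW', ?_, ?_⟩
  · by_contra hirr
    obtain ⟨x, hx⟩ := Fermat.Agent.S51.Three.exists_rat_psi3_root_of_not_irreducible W' hΔ' hirr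
    obtain ⟨x', hx'⟩ := hP _ _ C hCeq ⟨x, hx⟩
    rw [psi3_shortW] at hx'
    exact hroot x' hx'
  · intro ℓ hℓ hgW hgW' hℓ5
    have hΔs : (shortW (ev A s₁) (ev B s₁)).Δ ≠ 0 := by
      rw [shortW_Δ]
      exact mul_ne_zero (by norm_num) hdisc1
    have hc1 : Cong 5 (ratW W') (shortW (ev A s₁) (ev B s₁)) := hV _ _ C hΔs hCeq 5
    exact hC W' W hΔ' hΔ (cong_trans hc1 hcong) ℓ hℓ hgW hgW' hℓ5

end Fermat.Agent.SW.Final
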